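import Mathlib
import Fermat.Prelude.Def_CuspForm_HeckeAlgebra
import Fermat.Prelude.Def_FLTPrelim_Modularity
import Fermat.Prelude.Thm_ModularFormClass_qCoeff_heckeT
import Fermat.Prelude.Thm_ModularFormClass_qCoeff_heckeU
import Fermat.Prelude.Thm_CongruenceSubgroup_one_mem_strictPeriods_Gamma0

/-!
# q-coefficients of cusp forms and Hecke eigenvectors

`qCoeffLin`, the coefficient formulas for `heckeTLin` / `heckeULin`, and
"nonzero eigenvector of all generators ↔ multiple of a normalised eigenform".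
-/

set_option autoImplicit false

noncomputable section

open ModularFormClass CongruenceSubgroup

namespace FLTA.Hecke

variable {N : ℕ} {k : ℤ}

/-- `f ↦ qCoeff f n` as a linear map. -/
def qCoeffLin (N : ℕ) (k : ℤ) (n : ℕ) : CuspForm (Gamma0 N) k →ₗ[ℂ] ℂ where
  toFun f := qCoeff f n
  map_add' f g := by
    simp only [qCoeff, CuspForm.coe_add]
    rw [ModularForm.qExpansion_add one_pos (one_mem_strictPeriods_Gamma0 N) f g, map_add]
  map_smul' c f := by
    simp only [qCoeff, CuspForm.IsGLPos.coe_smul, RingHom.id_apply]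
    rw [ModularForm.qExpansion_smul one_pos (one_mem_strictPeriods_Gamma0 N) c f,
      PowerSeries.coeff_smul]

@[simp] theorem qCoeffLin_apply (n : ℕ) (f : CuspForm (Gamma0 N) k) :
    qCoeffLin N k n f = qCoeff f n := rfl

theorem qCoeff_smul (c : ℂ) (f : CuspForm (Gamma0 N) k) (n : ℕ) :
    qCoeff (c • f : CuspForm (Gamma0 N) k) n = c * qCoeff f n :=
  (qCoeffLin N k n).map_smul c f

theorem qCoeff_add (f g : CuspForm (Gamma0 N) k) (n : ℕ) :
    qCoeff (f + g : CuspForm (Gamma0 N) k) n = qCoeff f n + qCoeff g n :=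
  (qCoeffLin N k n).map_add f g

theorem qCoeff_sub (f g : CuspForm (Gamma0 N) k) (n : ℕ) :
    qCoeff (f - g : CuspForm (Gamma0 N) k) n = qCoeff f n - qCoeff g n :=
  (qCoeffLin N k n).map_sub f g

theorem qCoeff_zero (n : ℕ) : qCoeff (0 : CuspForm (Gamma0 N) k) n = 0 :=
  (qCoeffLin N k n).map_zero

theorem qCoeff_zero_index (f : CuspForm (Gamma0 N) k) : qCoeff f 0 = 0 :=
  CuspFormClass.qExpansion_coeff_zero f one_pos (one_mem_strictPeriods_Gamma0 N)

theorem eq_zero_of_qCoeff_eq_zero (f : CuspForm (Gamma0 N) k) (h : ∀ n, qCoeff f n = 0) :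
    f = 0 := by
  have h0 : UpperHalfPlane.qExpansion 1 f = 0 := by
    ext n
    rw [map_zero]; exact h n
  haveI : Fact (IsCusp OnePoint.infty
      (Subgroup.map (Matrix.SpecialLinearGroup.mapGL ℝ) (Gamma0 N))) :=
    ⟨Subgroup.isCusp_of_mem_strictPeriods one_pos (one_mem_strictPeriods_Gamma0 N)⟩
  exact DFunLike.coe_injective
    ((UpperHalfPlane.qExpansion_eq_zero_iff one_pos
      (SlashInvariantFormClass.periodic_comp_ofComplex f (one_mem_strictPeriods_Gamma0 N))
      (CuspFormClass.holo f) (ModularFormClass.bdd_at_infty f)).1 h0)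

theorem ext_qCoeff {f g : CuspForm (Gamma0 N) k} (h : ∀ n, qCoeff f n = qCoeff g n) : f = g :=
  sub_eq_zero.1 <| eq_zero_of_qCoeff_eq_zero _ fun n => by rw [qCoeff_sub, h n, sub_self]

theorem qCoeff_heckeTLin {p : ℕ} (hp : p.Prime) (hpN : ¬ p ∣ N) (f : CuspForm (Gamma0 N) k)
    (n : ℕ) :
    qCoeff (CuspForm.heckeTLin k hp hpN f) n =
      qCoeff f (n * p) + if p ∣ n then (p : ℂ) ^ (k - 1) * qCoeff f (n / p) else 0 :=
  ModularFormClass.qCoeff_heckeT f (one_mem_strictPeriods_Gamma0 N) hp.ne_zero n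

theorem qCoeff_heckeTLin_two {p : ℕ} (hp : p.Prime) (hpN : ¬ p ∣ N)
    (f : CuspForm (Gamma0 N) 2) (n : ℕ) :
    qCoeff (CuspForm.heckeTLin 2 hp hpN f) n =
      qCoeff f (n * p) + if p ∣ n then (p : ℂ) * qCoeff f (n / p) else 0 := by
  rw [qCoeff_heckeTLin]; norm_num

theorem qCoeff_heckeULin [NeZero N] {p : ℕ} (hp : p.Prime) (hpN : p ∣ N)
    (f : CuspForm (Gamma0 N) k) (n : ℕ) :
    qCoeff (CuspForm.heckeULin k hpN f) n = qCoeff f (n * p) :=
  ModularFormClass.qCoeff_heckeU f (one_mem_strictPeriods_Gamma0 N) hp.ne_zero n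

/-- The coefficient recursion attached to eigenvalues `c` at weight two. -/
def SatisfiesRecursion (N : ℕ) (a c : ℕ → ℂ) : Prop :=
  ∀ p : ℕ, p.Prime → ∀ n : ℕ,
    a (n * p) + (if p ∣ N then 0 else if p ∣ n then (p : ℂ) * a (n / p) else 0) = c p * a n

theorem SatisfiesRecursion.eq_zero {a c : ℕ → ℂ} (h : SatisfiesRecursion N a c) (h1 : a 1 = 0) :
    ∀ n, n ≠ 0 → a n = 0 := by
  intro n
  induction n using Nat.strong_induction_on with
  | _ n ih =>
    intro hn
    by_cases hn1 : n = 1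
    · rw [hn1, h1]
    obtain ⟨p, hp, m, rfl⟩ := Nat.exists_prime_and_dvd hn1
    have hm : m ≠ 0 := right_ne_zero_of_mul hn
    have hlt : m < p * m := lt_mul_left (Nat.pos_of_ne_zero hm) hp.one_lt
    have := h p hp m
    rw [ih m hlt hm, mul_zero] at this
    rw [mul_comm p m]
    split_ifs at this with h2 h3
    · simpa using this
    · have h4 : m / p < p * m := lt_of_le_of_lt (Nat.div_le_self m p) hlt
      have h5 : m / p ≠ 0 :=
        (Nat.div_pos (Nat.le_of_dvd (Nat.pos_of_ne_zero hm) h3) hp.pos).ne'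
      rw [ih _ h4 h5, mul_zero, add_zero] at this
      exact this
    · simpa using this

theorem SatisfiesRecursion.apply_prime {a c : ℕ → ℂ} (h : SatisfiesRecursion N a c)
    (h1 : a 1 = 1) {p : ℕ} (hp : p.Prime) : a p = c p := by
  have := h p hp 1
  rw [if_neg (Nat.Prime.not_dvd_one hp), h1, one_mul] at this
  simpa using this

theorem SatisfiesRecursion.mul_of_coprime {a c : ℕ → ℂ} (h : SatisfiesRecursion N a c)
    (h0 : a 0 = 0) (h1 : a 1 = 1) : ∀ m n : ℕ, m.Coprime n → a (m * n) = a m * a n := by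
  intro m
  induction m using Nat.strong_induction_on with
  | _ m ih =>
    intro n hco
    rcases eq_or_ne m 0 with rfl | hm0
    · simp [h0]
    rcases eq_or_ne m 1 with rfl | hm1
    · simp [h1]
    obtain ⟨p, hp, m', rfl⟩ := Nat.exists_prime_and_dvd hm1
    have hm : m' ≠ 0 := right_ne_zero_of_mul hm0
    have hlt : m' < p * m' := lt_mul_left (Nat.pos_of_ne_zero hm) hp.one_lt
    have hco' : m'.Coprime n := Nat.Coprime.coprime_dvd_left ⟨p, mul_comm _ _⟩ hco
    have hpn : p.Coprime n := Nat.Coprime.coprime_dvd_left ⟨m', rfl⟩ hco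
    have e1 := h p hp (m' * n)
    have e2 := h p hp m'
    rw [ih m' hlt n hco'] at e1
    rw [show p * m' * n = m' * n * p by ring, mul_comm p m']
    by_cases hN : p ∣ N
    · rw [if_pos hN, add_zero] at e1 e2
      rw [e1, e2]; ring
    rw [if_neg hN] at e1 e2
    by_cases hpm : p ∣ m'
    · rw [if_pos (dvd_mul_of_dvd_left hpm n)] at e1
      rw [if_pos hpm] at e2
      rw [Nat.mul_comm m' n, Nat.mul_div_assoc n hpm, Nat.mul_comm n (m' / p),
        ih (m' / p) (lt_of_le_of_lt (Nat.div_le_self m' p) hlt) n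
          (Nat.Coprime.coprime_dvd_left (Nat.div_dvd_of_dvd hpm) hco'), Nat.mul_comm n m'] at e1
      linear_combination e1 - a n * e2
    · have : ¬ p ∣ m' * n := fun h' => hpm (hpn.dvd_of_dvd_mul_right h')
      rw [if_neg this, add_zero] at e1
      rw [if_neg hpm, add_zero] at e2
      rw [e1, e2]; ring

theorem isNormalizedEigenform_of_recursion {f : CuspForm (Gamma0 N) 2} {c : ℕ → ℂ}
    (h1 : qCoeff f 1 = 1) (h : SatisfiesRecursion N (qCoeff f) c) : f.IsNormalizedEigenform where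
  qCoeff_one := h1
  qCoeff_mul_of_coprime := h.mul_of_coprime (qCoeff_zero_index f) h1
  qCoeff_prime_pow_of_not_dvd p r hp hpN := by
    have := h p hp (p ^ (r + 1))
    rw [if_neg hpN, if_pos (dvd_pow_self p r.succ_ne_zero), h.apply_prime h1 hp |>.symm,
      ← pow_succ, pow_succ p r, Nat.mul_div_cancel _ hp.pos, ← pow_succ] at this
    linear_combination this
  qCoeff_prime_pow_of_dvd p r hp hpN := by
    have := h p hp (p ^ (r + 1))
    rw [if_pos hpN, add_zero, h.apply_prime h1 hp |>.symm, ← pow_succ] at this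
    exact this

/-- An eigenvector of all `T_p`, `U_p` satisfies the coefficient recursion. -/
theorem satisfiesRecursion_of_eigenvector [NeZero N] {f : CuspForm (Gamma0 N) 2} {c : ℕ → ℂ}
    (hT : ∀ p (hp : p.Prime) (hpN : ¬ p ∣ N), CuspForm.heckeTLin 2 hp hpN f = c p • f)
    (hU : ∀ p (_ : p.Prime) (hpN : p ∣ N), CuspForm.heckeULin 2 hpN f = c p • f) :
    SatisfiesRecursion N (qCoeff f) c := by
  intro p hp n
  by_cases hpN : p ∣ N
  · rw [if_pos hpN, add_zero, ← qCoeff_heckeULin hp hpN f n, hU p hp hpN, qCoeff_smul]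
  · rw [if_neg hpN, ← qCoeff_heckeTLin_two hp hpN f n, hT p hp hpN, qCoeff_smul]

theorem qCoeff_one_ne_zero_of_eigenvector [NeZero N] {f : CuspForm (Gamma0 N) 2} (hf : f ≠ 0)
    {c : ℕ → ℂ} (hT : ∀ p (hp : p.Prime) (hpN : ¬ p ∣ N), CuspForm.heckeTLin 2 hp hpN f = c p • f)
    (hU : ∀ p (_ : p.Prime) (hpN : p ∣ N), CuspForm.heckeULin 2 hpN f = c p • f) :
    qCoeff f 1 ≠ 0 := fun h1 => hf <| eq_zero_of_qCoeff_eq_zero f fun n => by
  rcases eq_or_ne n 0 with rfl | hn
  · exact qCoeff_zero_index f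
  · exact (satisfiesRecursion_of_eigenvector hT hU).eq_zero h1 n hn

/-- A nonzero eigenvector of all generators has a multiple which is a normalised eigenform,
with the eigenvalues as its prime coefficients. -/
theorem exists_normalized_of_eigenvector [NeZero N] {f : CuspForm (Gamma0 N) 2} (hf : f ≠ 0)
    {c : ℕ → ℂ} (hT : ∀ p (hp : p.Prime) (hpN : ¬ p ∣ N), CuspForm.heckeTLin 2 hp hpN f = c p • f)
    (hU : ∀ p (_ : p.Prime) (hpN : p ∣ N), CuspForm.heckeULin 2 hpN f = c p • f) :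
    ∃ a : ℂ, a ≠ 0 ∧ (a • f).IsNormalizedEigenform ∧
      ∀ p : ℕ, p.Prime → qCoeff (a • f : CuspForm (Gamma0 N) 2) p = c p := by
  have h1 := qCoeff_one_ne_zero_of_eigenvector hf hT hU
  have hr := satisfiesRecursion_of_eigenvector (f := (qCoeff f 1)⁻¹ • f) (c := c)
    (fun p hp hpN => by rw [map_smul, hT p hp hpN, smul_comm])
    (fun p hp hpN => by rw [map_smul, hU p hp hpN, smul_comm])
  have h1' : qCoeff ((qCoeff f 1)⁻¹ • f : CuspForm (Gamma0 N) 2) 1 = 1 := by
    rw [qCoeff_smul, inv_mul_cancel₀ h1]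
  exact ⟨_, inv_ne_zero h1, isNormalizedEigenform_of_recursion h1' hr,
    fun p hp => hr.apply_prime h1' hp⟩

theorem qCoeff_mul_prime_of_normalized {f : CuspForm (Gamma0 N) 2}
    (hf : f.IsNormalizedEigenform) :
    SatisfiesRecursion N (qCoeff f) (qCoeff f) := by
  intro p hp n
  rcases eq_or_ne n 0 with rfl | hn
  · simp [qCoeff_zero_index]
  obtain ⟨r, m, hm, rfl⟩ := Nat.exists_eq_pow_mul_and_not_dvd hn p hp.ne_one
  have hco : ∀ s, (p ^ s).Coprime m := fun s => ((hp.coprime_iff_not_dvd).2 hm).pow_left s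
  have hsucc : p ^ r * m * p = p ^ (r + 1) * m := by ring
  rw [hsucc, hf.qCoeff_mul_of_coprime _ _ (hco _), hf.qCoeff_mul_of_coprime _ _ (hco _)]
  rcases r with _ | r
  · rw [zero_add, pow_one, pow_zero, one_mul, if_neg hm, hf.qCoeff_one]
    simp
  by_cases hN : p ∣ N
  · rw [if_pos hN, hf.qCoeff_prime_pow_of_dvd p r hp hN]; ring
  · rw [if_neg hN, if_pos (dvd_mul_of_dvd_left (dvd_pow_self p r.succ_ne_zero) m),
      hf.qCoeff_prime_pow_of_not_dvd p r hp hN,
      show p ^ (r + 1) * m / p = p ^ r * m by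
        rw [pow_succ, Nat.mul_right_comm, Nat.mul_div_cancel _ hp.pos],
      hf.qCoeff_mul_of_coprime _ _ (hco _)]
    ring

theorem heckeTLin_of_normalized {f : CuspForm (Gamma0 N) 2} (hf : f.IsNormalizedEigenform)
    {p : ℕ} (hp : p.Prime) (hpN : ¬ p ∣ N) :
    CuspForm.heckeTLin 2 hp hpN f = qCoeff f p • f :=
  ext_qCoeff fun n => by
    have := qCoeff_mul_prime_of_normalized hf p hp n
    rw [if_neg hpN] at this
    rw [qCoeff_heckeTLin_two, qCoeff_smul, this]

theorem heckeULin_of_normalized [NeZero N] {f : CuspForm (Gamma0 N) 2}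
    (hf : f.IsNormalizedEigenform) {p : ℕ} (hp : p.Prime) (hpN : p ∣ N) :
    CuspForm.heckeULin 2 hpN f = qCoeff f p • f :=
  ext_qCoeff fun n => by
    have := qCoeff_mul_prime_of_normalized hf p hp n
    rw [if_pos hpN, add_zero] at this
    rw [qCoeff_heckeULin hp, qCoeff_smul, this]

theorem ne_zero_of_normalized {f : CuspForm (Gamma0 N) 2} (hf : f.IsNormalizedEigenform) :
    f ≠ 0 := fun h => by
  have := hf.qCoeff_one
  rw [h, qCoeff_zero] at this
  exact zero_ne_one this

end FLTA.Hecke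

end
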