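import Mathlib
import Fermat.Agent.Hecke.Eigen
import Fermat.Prelude.Def_CuspForm_IntegralStructure
import Fermat.Prelude.Thm_CuspForm_intLattice_fg
import Fermat.Prelude.Thm_CuspForm_mem_intLattice_of_mem_heckeAlgebra

/-!
# Characters of the Hecke algebra and normalised eigenforms

Given an integral structure, every prime ideal `𝔭` of the full Hecke algebra contains the kernel of
the eigenvalue character of a normalised eigenform (Deligne–Serre lifting).
-/

set_option autoImplicit false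

noncomputable section

open ModularFormClass CongruenceSubgroup
open scoped IsMulCommutative

namespace FLTA.Hecke

variable {N : ℕ} [NeZero N] {k : ℤ} {S : Set ℕ}

theorem exists_intCoeff_of_mem_intLattice {f : CuspForm (Gamma0 N) k}
    (hf : f ∈ CuspForm.intLattice N k) : ∀ n : ℕ, ∃ m : ℤ, qCoeff f n = m := by
  induction hf using Submodule.span_induction with
  | mem x hx => exact hx
  | zero => exact fun n => ⟨0, by rw [qCoeff_zero, Int.cast_zero]⟩
  | add x y _ _ hx hy =>
    intro n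
    obtain ⟨a, ha⟩ := hx n
    obtain ⟨b, hb⟩ := hy n
    exact ⟨a + b, by rw [qCoeff_add, ha, hb, Int.cast_add]⟩
  | smul c x _ hx =>
    intro n
    obtain ⟨a, ha⟩ := hx n
    exact ⟨c * a, by rw [← Int.cast_smul_eq_zsmul ℂ, qCoeff_smul, ha, Int.cast_mul]⟩

theorem mem_intLattice_of_intCoeff {f : CuspForm (Gamma0 N) k}
    (hf : ∀ n : ℕ, ∃ m : ℤ, qCoeff f n = m) : f ∈ CuspForm.intLattice N k :=
  Submodule.subset_span hf

theorem finiteDimensional_of_integralStructure (h : CuspForm.HasIntegralStructure N k) :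
    FiniteDimensional ℂ (CuspForm (Gamma0 N) k) := by
  obtain ⟨s, hs⟩ := CuspForm.intLattice_fg N k
  refine ⟨⟨s, top_unique ?_⟩⟩
  rw [← (show Submodule.span ℂ _ = ⊤ from h), Submodule.span_le, ← hs]
  exact Submodule.span_le_restrictScalars ℤ ℂ _

/-- The action of the Hecke algebra on the integral lattice. -/
def latticeRep (hk : 1 ≤ k) :
    CuspForm.heckeAlgebra N k S →ₗ[ℤ] Module.End ℤ (CuspForm.intLattice N k) where
  toFun t := LinearMap.restrict (p := CuspForm.intLattice N k) (q := CuspForm.intLattice N k)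
    ((t : Module.End ℂ (CuspForm (Gamma0 N) k)).restrictScalars ℤ)
    fun _ hx => CuspForm.mem_intLattice_of_mem_heckeAlgebra hk t.2 hx
  map_add' _ _ := rfl
  map_smul' _ _ := rfl

theorem latticeRep_injective (hk : 1 ≤ k) (h : CuspForm.HasIntegralStructure N k) :
    Function.Injective (latticeRep (N := N) (k := k) (S := S) hk) := by
  intro s t hst
  refine Subtype.ext (LinearMap.ext_on (show Submodule.span ℂ _ = ⊤ from h) fun x hx => ?_)
  exact congrArg (fun φ => ((φ ⟨x, hx⟩ : CuspForm.intLattice N k) : CuspForm (Gamma0 N) k)) hst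

theorem heckeAlgebra_finite_of_integralStructure (hk : 1 ≤ k)
    (h : CuspForm.HasIntegralStructure N k) : Module.Finite ℤ (CuspForm.heckeAlgebra N k S) := by
  haveI : Module.Finite ℤ (CuspForm.intLattice N k) :=
    Module.Finite.iff_fg.2 (CuspForm.intLattice_fg N k)
  haveI : IsAddTorsionFree (CuspForm.intLattice N k) :=
    ⟨fun n hn a b hab => Subtype.ext <| smul_right_injective _ (Nat.cast_ne_zero.2 hn : (n : ℂ) ≠ 0)
      (by simpa only [Nat.cast_smul_eq_nsmul, Submodule.coe_smul_of_tower] using congrArg Subtype.val hab)⟩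
  haveI : Module.Free ℤ (CuspForm.intLattice N k) := Module.free_of_finite_type_torsion_free'
  exact Module.Finite.of_injective (latticeRep hk) (latticeRep_injective hk h)

/-- A commuting family of operators on a nonzero finite dimensional complex space has a common
eigenvector. -/
theorem exists_common_eigenvector {V : Type*} [AddCommGroup V] [Module ℂ V] [FiniteDimensional ℂ V]
    (A : Set (Module.End ℂ V)) (hA : ∀ s ∈ A, ∀ t ∈ A, Commute s t) (W : Submodule ℂ V)
    (hW : W ≠ ⊥) (hWA : ∀ t ∈ A, ∀ w ∈ W, t w ∈ W) :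
    ∃ v ∈ W, v ≠ 0 ∧ ∀ t ∈ A, ∃ c : ℂ, t v = c • v := by
  induction hn : Module.finrank ℂ W using Nat.strong_induction_on generalizing W with
  | _ n ih =>
    obtain ⟨w, hw, hw0⟩ := Submodule.exists_mem_ne_zero_of_ne_bot hW
    by_cases hall : ∀ t ∈ A, ∃ c : ℂ, t w = c • w
    · exact ⟨w, hw, hw0, hall⟩
    simp only [not_forall, not_exists] at hall
    obtain ⟨t, ht, htw⟩ := hall
    haveI : Nontrivial W := Submodule.nontrivial_iff_ne_bot.2 hW
    obtain ⟨c, hc⟩ := Module.End.exists_eigenvalue (LinearMap.restrict t (hWA t ht))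
    obtain ⟨u, hu⟩ := hc.exists_hasEigenvector
    have hu' : t (u : V) = c • (u : V) := congrArg Subtype.val hu.apply_eq_smul
    set W' : Submodule ℂ V := W ⊓ Module.End.eigenspace t c with hW'def
    have hW'0 : W' ≠ ⊥ := fun h => hu.2 <| Subtype.ext <| by
      simpa using (Submodule.eq_bot_iff _).1 h (u : V)
        ⟨u.2, Module.End.mem_eigenspace_iff.2 hu'⟩
    have hlt : W' < W := lt_of_le_of_ne inf_le_left fun h => by
      have : w ∈ W' := h.symm ▸ hw
      exact htw c (Module.End.mem_eigenspace_iff.1 this.2)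
    obtain ⟨v, hv, hv0, hvA⟩ := ih _ (hn ▸ Submodule.finrank_lt_finrank_of_lt hlt) W' hW'0
      (fun s hs x hx => ⟨hWA s hs x hx.1, Module.End.mem_eigenspace_iff.2 (by
        rw [← Module.End.mul_apply, (hA t ht s hs).eq, Module.End.mul_apply,
          Module.End.mem_eigenspace_iff.1 hx.2, map_smul])⟩) rfl
    exact ⟨v, hv.1, hv0, hvA⟩

/-- The character of a common eigenvector. -/
theorem exists_char_of_eigenvector {v : CuspForm (Gamma0 N) k} (hv : v ≠ 0)
    (h : ∀ t : CuspForm.heckeAlgebra N k S,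
      ∃ c : ℂ, (t : Module.End ℂ (CuspForm (Gamma0 N) k)) v = c • v) :
    ∃ χ : CuspForm.heckeAlgebra N k S →+* ℂ,
      ∀ t : CuspForm.heckeAlgebra N k S, (t : Module.End ℂ (CuspForm (Gamma0 N) k)) v = χ t • v := by
  choose c hc using h
  have inj := smul_left_injective ℂ hv
  refine ⟨{ toFun := c, map_one' := ?_, map_mul' := ?_, map_zero' := ?_, map_add' := ?_ }, hc⟩
  · exact inj (show c 1 • v = (1 : ℂ) • v by rw [← hc, one_smul]; rfl)
  · exact fun s t => inj (show c (s * t) • v = (c s * c t) • v by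
      rw [← hc, MulMemClass.coe_mul, Module.End.mul_apply, hc t, map_smul, hc s, smul_smul,
        mul_comm])
  · exact inj (show c 0 • v = (0 : ℂ) • v by rw [← hc, zero_smul]; rfl)
  · exact fun s t => inj (show c (s + t) • v = (c s + c t) • v by
      rw [← hc, add_smul, ← hc, ← hc]; rfl)

/-- Every normalised eigenform has an eigenvalue character on the Hecke algebra. -/
theorem exists_char_of_normalized {f : CuspForm (Gamma0 N) 2} (hf : f.IsNormalizedEigenform) :
    ∃ χ : CuspForm.heckeAlgebra N 2 S →+* ℂ,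
      (∀ t : CuspForm.heckeAlgebra N 2 S, (t : Module.End ℂ (CuspForm (Gamma0 N) 2)) f = χ t • f) ∧
      (∀ p (hp : p.Prime) (hpN : ¬ p ∣ N) (hpS : p ∉ S),
        χ (CuspForm.heckeAlgebra.T hp hpN hpS) = qCoeff f p) ∧
      ∀ p (hp : p.Prime) (hpN : p ∣ N) (hpS : p ∉ S),
        χ (CuspForm.heckeAlgebra.U hp hpN hpS) = qCoeff f p := by
  have h : ∀ t, t ∈ CuspForm.heckeAlgebra N 2 S → ∃ c : ℂ, t f = c • f := fun t ht => by
    induction ht using Algebra.adjoin_induction with
    | mem x hx =>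
      rcases hx with ⟨p, hp, hpN, -, rfl⟩ | ⟨p, hpN, hp, -, rfl⟩
      · exact ⟨_, heckeTLin_of_normalized hf hp hpN⟩
      · exact ⟨_, heckeULin_of_normalized hf hp hpN⟩
    | algebraMap r =>
      exact ⟨(r : ℂ), by rw [Module.algebraMap_end_apply, Int.cast_smul_eq_zsmul]⟩
    | add x y _ _ hx hy =>
      obtain ⟨a, ha⟩ := hx
      obtain ⟨b, hb⟩ := hy
      exact ⟨a + b, by rw [LinearMap.add_apply, ha, hb, add_smul]⟩
    | mul x y _ _ hx hy =>
      obtain ⟨a, ha⟩ := hx
      obtain ⟨b, hb⟩ := hy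
      exact ⟨b * a, by rw [Module.End.mul_apply, hb, map_smul, ha, smul_smul]⟩
  obtain ⟨χ, hχ⟩ := exists_char_of_eigenvector (ne_zero_of_normalized hf) fun t => h t.1 t.2
  have inj := smul_left_injective ℂ (ne_zero_of_normalized hf)
  exact ⟨χ, hχ, fun p hp hpN hpS => inj ((hχ _).symm.trans (heckeTLin_of_normalized hf hp hpN)),
    fun p hp hpN hpS => inj ((hχ _).symm.trans (heckeULin_of_normalized hf hp hpN))⟩

/-- Deligne–Serre lifting: below every prime of the full Hecke algebra lies the kernel of the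
character of a normalised eigenform. -/
theorem exists_eigenform_char_ker_le (h : CuspForm.HasIntegralStructure N 2)
    (𝔭 : Ideal (CuspForm.heckeAlgebra N 2 ∅)) [𝔭.IsPrime] :
    ∃ (f : CuspForm (Gamma0 N) 2) (χ : CuspForm.heckeAlgebra N 2 ∅ →+* ℂ),
      f.IsNormalizedEigenform ∧
      (∀ t : CuspForm.heckeAlgebra N 2 ∅, (t : Module.End ℂ (CuspForm (Gamma0 N) 2)) f = χ t • f) ∧
      (∀ t, IsIntegral ℤ (χ t)) ∧ RingHom.ker χ ≤ 𝔭 ∧
      (∀ p (hp : p.Prime) (hpN : ¬ p ∣ N),
        χ (CuspForm.heckeAlgebra.T hp hpN (Set.notMem_empty p)) = qCoeff f p) ∧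
      ∀ p (hp : p.Prime) (hpN : p ∣ N),
        χ (CuspForm.heckeAlgebra.U hp hpN (Set.notMem_empty p)) = qCoeff f p := by
  haveI := finiteDimensional_of_integralStructure h
  haveI hfin : Module.Finite ℤ (CuspForm.heckeAlgebra N 2 ∅) :=
    heckeAlgebra_finite_of_integralStructure one_le_two h
  haveI : IsNoetherianRing (CuspForm.heckeAlgebra N 2 ∅) := IsNoetherianRing.of_finite ℤ _
  obtain ⟨P, hPmin, hP⟩ :=
    Ideal.exists_minimalPrimes_le (I := (⊥ : Ideal (CuspForm.heckeAlgebra N 2 ∅))) (J := 𝔭) bot_le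
  haveI : P.IsPrime := hPmin.1.1
  -- P is the annihilator of a nonzero element of the algebra
  have hass : P ∈ associatedPrimes (CuspForm.heckeAlgebra N 2 ∅) (CuspForm.heckeAlgebra N 2 ∅) := by
    apply Module.associatedPrimes.minimalPrimes_annihilator_subset_associatedPrimes
    rwa [Module.annihilator_eq_bot.2 inferInstance]
  obtain ⟨-, u, hu⟩ := isAssociatedPrime_iff.1 hass
  -- the space killed by P
  let W : Submodule ℂ (CuspForm (Gamma0 N) 2) :=
    LinearMap.range (u : Module.End ℂ (CuspForm (Gamma0 N) 2))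
  have hu0 : u ≠ 0 := by
    rintro rfl
    exact ‹P.IsPrime›.ne_top (hu.trans ((Ideal.eq_top_iff_one _).2 (by simp)))
  have hW : W ≠ ⊥ := fun h0 => hu0 <| Subtype.ext <| LinearMap.range_eq_bot.1 h0
  have hcomm : ∀ s t : CuspForm.heckeAlgebra N 2 ∅,
      Commute (s : Module.End ℂ (CuspForm (Gamma0 N) 2)) (t : _) := fun s t =>
    (congrArg Subtype.val (mul_comm s t) : _)
  obtain ⟨v, hvW, hv0, hv⟩ := exists_common_eigenvector
    (CuspForm.heckeAlgebra N 2 ∅ : Set (Module.End ℂ (CuspForm (Gamma0 N) 2)))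
    (fun s hs t ht => hcomm ⟨s, hs⟩ ⟨t, ht⟩) W hW (fun t ht w ⟨x, hx⟩ => ⟨t x, by
      rw [← hx, ← Module.End.mul_apply, ← Module.End.mul_apply, (hcomm u ⟨t, ht⟩).eq]⟩)
  obtain ⟨χ, hχ⟩ := exists_char_of_eigenvector hv0 fun t => hv t.1 t.2
  have hker : P ≤ RingHom.ker χ := fun t ht => by
    obtain ⟨x, hx⟩ := hvW
    have htu : t * u = 0 := by
      rw [hu] at ht
      simpa [Submodule.mem_colon_singleton] using ht
    have h1 := hχ t
    rw [← hx, ← Module.End.mul_apply, ← MulMemClass.coe_mul, htu, hx] at h1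
    exact (smul_eq_zero.1 h1.symm).resolve_right hv0
  have hker' : RingHom.ker χ = P := by
    refine le_antisymm (fun x hx => ?_) hker
    by_contra hxP
    obtain ⟨n, hn, hn'⟩ : ∃ n : ℤ, n ≠ 0 ∧ (n : CuspForm.heckeAlgebra N 2 ∅) ∈ RingHom.ker χ := by
      have hint : Algebra.IsIntegral ℤ (CuspForm.heckeAlgebra N 2 ∅ ⧸ P) :=
        Algebra.IsIntegral.of_finite ℤ _
      have := Ideal.comap_ne_bot_of_integral_mem (R := ℤ)
        (I := Ideal.map (Ideal.Quotient.mk P) (RingHom.ker χ)) (x := Ideal.Quotient.mk P x)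
        (fun h0 => hxP (Ideal.Quotient.eq_zero_iff_mem.1 h0)) (Ideal.mem_map_of_mem _ hx)
        (Algebra.IsIntegral.isIntegral _)
      obtain ⟨n, hn, hn0⟩ := Submodule.exists_mem_ne_zero_of_ne_bot this
      refine ⟨n, hn0, ?_⟩
      obtain ⟨y, hy, hyn⟩ :=
        (Ideal.mem_map_iff_of_surjective _ Ideal.Quotient.mk_surjective).1 (Ideal.mem_comap.1 hn)
      rw [eq_intCast, ← map_intCast (Ideal.Quotient.mk P), Ideal.Quotient.eq] at hyn
      have := Submodule.sub_mem _ hy (hker hyn)
      simpa using this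
    rw [RingHom.mem_ker, map_intCast] at hn'
    exact hn (Int.cast_eq_zero.1 hn')
  let c : ℕ → ℂ := fun p => if hp : p.Prime then
    if hN : p ∣ N then χ (CuspForm.heckeAlgebra.U hp hN (Set.notMem_empty p))
    else χ (CuspForm.heckeAlgebra.T hp hN (Set.notMem_empty p)) else 0
  obtain ⟨a, ha, hf, hfp⟩ := exists_normalized_of_eigenvector hv0 (c := c)
    (fun p hp hpN => by simp only [c, dif_pos hp, dif_neg hpN, ← hχ]; rfl)
    (fun p hp hpN => by simp only [c, dif_pos hp, dif_pos hpN, ← hχ]; rfl)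
  refine ⟨a • v, χ, hf, fun t => by rw [map_smul, hχ, smul_comm], fun t => ?_, hker' ▸ hP,
    fun p hp hpN => by rw [hfp p hp]; simp only [c, dif_pos hp, dif_neg hpN],
    fun p hp hpN => by rw [hfp p hp]; simp only [c, dif_pos hp, dif_pos hpN]⟩
  exact (Algebra.IsIntegral.isIntegral t).map χ.toIntAlgHom

end FLTA.Hecke

end
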